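import Fermat.Agent.Arith.Minkowski
import Fermat.Agent.Arith.RootsOfUnity
import Fermat.Prelude.Def_ExtCitation_AdmissibleExtension
import Mathlib.NumberTheory.LSeries.PrimesInAP

/-!
# The mod `p` cyclotomic character on an inertia group over `p`

The character `ω : Gal(ℚ̄/ℚ) → (ZMod p)ˣ` is surjective on every inertia group over `p`.
-/

set_option autoImplicit false

noncomputable section

namespace Fermat.Agent.EC.Rep

open Fermat.Agent.Arith
open scoped Pointwise

theorem card_rootsOfUnity_qbar (p : ℕ) [NeZero p] : Nat.card (rootsOfUnity p QBar) = p :=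
  IsAlgClosed.card_rootsOfUnity_eq QBar p

variable (p : ℕ) [Fact p.Prime]

/-- The mod `p` cyclotomic character as a homomorphism on the absolute Galois group. -/
def cyclotomicHom : GQ →* (ZMod p)ˣ where
  toFun σ := modularCyclotomicCharacter QBar (card_rootsOfUnity_qbar p) (σ : QBar ≃+* QBar)
  map_one' := map_one (modularCyclotomicCharacter QBar (card_rootsOfUnity_qbar p))
  map_mul' σ τ := map_mul (modularCyclotomicCharacter QBar (card_rootsOfUnity_qbar p))
    (σ : QBar ≃+* QBar) (τ : QBar ≃+* QBar)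

theorem cyclotomicHom_apply (σ : GQ) :
    cyclotomicHom p σ =
      modularCyclotomicCharacter QBar (card_rootsOfUnity_qbar p) (σ : QBar ≃+* QBar) := rfl

variable {p}

theorem cyclotomicHom_eq_one_of_inertia {q : ℕ} (hq : q.Prime) (hqp : q ≠ p)
    {A : ValuationSubring QBar} (hA : A.LiesOverPrime q) {σ : GQ}
    (hσ : σ ∈ A.inertiaSubgroupIn ℚ) : cyclotomicHom p σ = 1 :=
  modularCyclotomicCharacter_inertia hA hq hσ _
    fun h => hqp ((Nat.prime_dvd_prime_iff_eq hq Fact.out).mp h)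

theorem cyclotomicHom_factors : ∃ L : IntermediateField ℚ QBar, FiniteDimensional ℚ L ∧
    ∀ σ : GQ, (∀ x ∈ L, σ x = x) → cyclotomicHom p σ = 1 := by
  obtain ⟨ζ, hζ⟩ : ∃ ζ : QBar, IsPrimitiveRoot ζ p :=
    HasEnoughRootsOfUnity.exists_primitiveRoot QBar p
  refine ⟨IntermediateField.adjoin ℚ {ζ},
    IntermediateField.adjoin.finiteDimensional (Algebra.IsIntegral.isIntegral ζ), fun σ hσ => ?_⟩
  apply Units.ext
  rw [cyclotomicHom_apply, modularCyclotomicCharacter_eq_natCast _ (c := 1) fun t ht => by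
    obtain ⟨i, -, rfl⟩ := hζ.eq_pow_of_pow_eq_one ht
    rw [pow_one, map_pow]
    exact congrArg (· ^ i) (hσ ζ (IntermediateField.subset_adjoin ℚ _ (Set.mem_singleton ζ)))]
  simp

theorem cyclotomicHom_surjective : Function.Surjective (cyclotomicHom p) := by
  intro a
  obtain ⟨ℓ, hℓp, hℓ, hℓa⟩ :=
    Nat.forall_exists_prime_gt_and_eq_mod (q := p) (a := (a : ZMod p)) a.isUnit p
  obtain ⟨A, hA⟩ := exists_liesOverPrime hℓ
  obtain ⟨σ, hσ⟩ := exists_isFrobeniusAt hA hℓ
  refine ⟨σ, Units.ext ?_⟩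
  rw [cyclotomicHom_apply, modularCyclotomicCharacter_frobenius hA hℓ hσ _
    fun h => absurd (Nat.le_of_dvd (Fact.out : p.Prime).pos h) (not_le.mpr hℓp), hℓa]

/-- The cyclotomic character is surjective on every inertia group over `p`. -/
theorem exists_mem_inertia_cyclotomicHom_eq {A : ValuationSubring QBar} (hA : A.LiesOverPrime p)
    (a : (ZMod p)ˣ) : ∃ σ ∈ A.inertiaSubgroupIn ℚ, cyclotomicHom p σ = a := by
  set T : Subgroup (ZMod p)ˣ := (A.inertiaSubgroupIn ℚ).map (cyclotomicHom p)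
  obtain ⟨L, hLfin, hL⟩ := cyclotomicHom_factors (p := p)
  have hopen : IsOpen ((T.comap (cyclotomicHom p) : Subgroup GQ) : Set GQ) :=
    Subgroup.isOpen_mono (fun σ hσ => by
      rw [Subgroup.mem_comap, hL σ fun x hx =>
        (IntermediateField.mem_fixingSubgroup_iff _ _).mp hσ x hx]
      exact T.one_mem) (IntermediateField.fixingSubgroup_isOpen L)
  have htop : T.comap (cyclotomicHom p) = ⊤ := by
    refine eq_top_of_inertia_le _ hopen fun q hq B hB σ hσ => ?_
    rw [Subgroup.mem_comap]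
    by_cases hqp : q = p
    · subst hqp
      obtain ⟨g, rfl⟩ := exists_smul_eq hA hB hq
      have h' : g * (g⁻¹ * σ * g) * g⁻¹ ∈ (g • A).inertiaSubgroupIn ℚ := by group; exact hσ
      refine ⟨_, mem_inertia_smul_iff.mp h', ?_⟩
      rw [map_mul, map_mul, map_inv, mul_right_comm, inv_mul_cancel, one_mul]
    · rw [cyclotomicHom_eq_one_of_inertia hq hqp hB hσ]
      exact T.one_mem
  obtain ⟨σ, rfl⟩ := cyclotomicHom_surjective a
  obtain ⟨τ, hτ, he⟩ := (htop ▸ Subgroup.mem_top σ : σ ∈ T.comap (cyclotomicHom p))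
  exact ⟨τ, hτ, he⟩

end Fermat.Agent.EC.Rep
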