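import Fermat.Agent.Arith.RootsOfUnity
import Fermat.Prelude.Def_GaloisRep_ComplexConjugation
import Mathlib.FieldTheory.IsAlgClosed.AlgebraicClosure

/-!
# Involutions in the absolute Galois group of `ℚ`

A nontrivial involution `c` of `AlgebraicClosure ℚ` inverts the roots of unity of odd prime order,
so that the mod `p` cyclotomic character takes the value `-1` at it.
-/

set_option autoImplicit false

namespace Fermat.Agent.EC.Rep

local notation "Q̄" => AlgebraicClosure ℚ
local notation "GQ" => AlgebraicClosure ℚ ≃ₐ[ℚ] AlgebraicClosure ℚ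

variable {c : AlgebraicClosure ℚ ≃ₐ[ℚ] AlgebraicClosure ℚ}

theorem involution_apply_apply (hc : c * c = 1) (x : Q̄) : c (c x) = x := by
  rw [← AlgEquiv.mul_apply, hc, AlgEquiv.one_apply]

/-- `-1` has no square root in the fixed field of a nontrivial involution. -/
theorem involution_sq_ne_neg_one (hc : c * c = 1) (hne : c ≠ 1) {i : Q̄} (hi : c i = i) :
    i * i ≠ -1 := by
  intro hi2
  obtain ⟨x, hx⟩ : ∃ x, c x ≠ x := by
    by_contra h
    push Not at h
    exact hne (AlgEquiv.ext h)
  set s := x - c x with hs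
  have hs0 : s ≠ 0 := sub_ne_zero.mpr fun h => hx h.symm
  have hcs : c s = -s := by rw [hs, map_sub, involution_apply_apply hc]; ring
  obtain ⟨b, hb⟩ := IsAlgClosed.exists_eq_mul_self s
  have hm : c (b * c b) = b * c b := by rw [map_mul, involution_apply_apply hc, mul_comm]
  have hbc : (b * c b) * (b * c b) = -(b * b) * (b * b) := by
    rw [← hb]
    calc (b * c b) * (b * c b) = (b * b) * (c (b * b)) := by rw [map_mul]; ring
      _ = -s * s := by rw [← hb, hcs]; ring
  have h1 : (i * (b * c b)) * (i * (b * c b)) = s * s := by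
    rw [hb]
    linear_combination (b * c b) * (b * c b) * hi2 - hbc
  rcases mul_self_eq_mul_self_iff.mp h1 with h | h
  · have := congrArg c h
    rw [map_mul, hi, hm, h, hcs] at this
    exact hs0 (self_eq_neg.mp this)
  · have := congrArg c h
    rw [map_mul, map_neg, hi, hm, h, hcs, neg_neg] at this
    exact hs0 (neg_eq_self.mp this)

theorem involution_apply_I (hc : c * c = 1) (hne : c ≠ 1) {i : Q̄} (hi : i * i = -1) :
    c i = -i := by
  have : c i * c i = i * i := by rw [← map_mul, hi, map_neg, map_one]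
  rcases mul_self_eq_mul_self_iff.mp this with h | h
  · exact absurd hi (involution_sq_ne_neg_one hc hne h)
  · exact h

/-- Sums of two squares in the fixed field are squares there. -/
theorem involution_exists_sq_add_sq (hc : c * c = 1) (hne : c ≠ 1) {x y : Q̄} (hx : c x = x)
    (hy : c y = y) : ∃ z, c z = z ∧ x * x + y * y = z * z := by
  obtain ⟨i, hi⟩ : ∃ i : Q̄, -1 = i * i := IsAlgClosed.exists_eq_mul_self _
  obtain ⟨w, hw⟩ := IsAlgClosed.exists_eq_mul_self (x + y * i)
  refine ⟨w * c w, by rw [map_mul, involution_apply_apply hc, mul_comm], ?_⟩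
  calc x * x + y * y = (x + y * i) * (x + y * -i) := by linear_combination (-(y * y)) * hi
    _ = (x + y * i) * c (x + y * i) := by
      rw [map_add, map_mul, hx, hy, involution_apply_I hc hne hi.symm]
    _ = _ := by rw [hw, map_mul]; ring

theorem involution_exists_sq_sum (hc : c * c = 1) (hne : c ≠ 1) {ι : Type*} (s : Finset ι)
    (f : ι → Q̄) (hf : ∀ j ∈ s, c (f j) = f j) :
    ∃ z, c z = z ∧ ∑ j ∈ s, f j * f j = z * z := by
  classical
  induction s using Finset.induction with
  | empty => exact ⟨0, map_zero _, by simp⟩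
  | insert a s ha ih =>
    obtain ⟨z, hz, hzs⟩ := ih fun j hj => hf j (Finset.mem_insert_of_mem hj)
    obtain ⟨w, hw, hws⟩ :=
      involution_exists_sq_add_sq hc hne (hf a (Finset.mem_insert_self a s)) hz
    exact ⟨w, hw, by rw [Finset.sum_insert ha, hzs, hws]⟩

/-- A nontrivial involution moves every root of unity of odd prime order. -/
theorem involution_apply_root_ne (hc : c * c = 1) (hne : c ≠ 1) {p : ℕ} (hp : p.Prime)
    (hp2 : p ≠ 2) {ζ : Q̄} (hζ : IsPrimitiveRoot ζ p) : c ζ ≠ ζ := by
  intro h
  obtain ⟨z, hz, hzs⟩ := involution_exists_sq_sum hc hne ((Finset.range (p - 1)))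
    (fun j => ζ ^ (j + 1)) (fun j _ => by rw [map_pow, h])
  have hζ2 : IsPrimitiveRoot (ζ ^ 2) p :=
    hζ.pow_of_coprime 2 ((Nat.coprime_primes Nat.prime_two hp).mpr fun e => hp2 e.symm)
  have hsum := hζ2.geom_sum_eq_zero hp.one_lt
  rw [show p = p - 1 + 1 from (Nat.sub_add_cancel hp.one_le).symm, Finset.sum_range_succ'] at hsum
  have hsum' : ∑ j ∈ Finset.range (p - 1), ζ ^ (j + 1) * ζ ^ (j + 1) = -1 := by
    rw [pow_zero, add_eq_zero_iff_eq_neg] at hsum
    rw [← hsum]
    exact Finset.sum_congr rfl fun j _ => by rw [← pow_mul, ← pow_add]; ring_nf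
  exact involution_sq_ne_neg_one hc hne hz (by rw [← hzs, hsum'])

/-- The cyclotomic character at a nontrivial involution is `-1`. -/
theorem modularCyclotomicCharacter_involution (hc : c * c = 1) (hne : c ≠ 1) {p : ℕ}
    [Fact p.Prime] (hp2 : p ≠ 2) (hn : Nat.card (rootsOfUnity p Q̄) = p) :
    ((modularCyclotomicCharacter Q̄ hn (c : Q̄ ≃+* Q̄) : (ZMod p)ˣ) : ZMod p) = -1 := by
  have hp : p.Prime := Fact.out
  set u := modularCyclotomicCharacter Q̄ hn (c : Q̄ ≃+* Q̄) with hu
  have hu2 : u * u = 1 := by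
    rw [hu, ← map_mul]
    convert map_one (modularCyclotomicCharacter Q̄ hn) using 2
    ext x
    exact involution_apply_apply hc x
  have h2 : (u : ZMod p) * u = 1 := by rw [← Units.val_mul, hu2, Units.val_one]
  refine (mul_self_eq_one_iff.mp h2).resolve_left fun h1 => ?_
  obtain ⟨ζ, hζ⟩ := HasEnoughRootsOfUnity.exists_primitiveRoot Q̄ p
  have hspec := modularCyclotomicCharacter.spec Q̄ hn (c : Q̄ ≃+* Q̄)
    (t := (hζ.isUnit hp.ne_zero).unit) (by
      rw [mem_rootsOfUnity]
      exact Units.ext (by simpa using hζ.pow_eq_one))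
  rw [← hu, h1, ZMod.val_one, pow_one] at hspec
  exact involution_apply_root_ne hc hne hp hp2 hζ (by simpa using hspec)

theorem complexConjugation_ne_one : (complexConjugation : GQ) ≠ 1 := by
  intro h
  obtain ⟨i, hi⟩ : ∃ i : Q̄, -1 = i * i := IsAlgClosed.exists_eq_mul_self _
  have h1 := complexEmbedding_complexConjugation i
  rw [h, AlgEquiv.one_apply] at h1
  have h2 : complexEmbedding i * complexEmbedding i = -1 := by
    rw [← map_mul, ← hi, map_neg, map_one]
  have h3 : (complexEmbedding i).im = 0 := Complex.conj_eq_iff_im.mp h1.symm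
  have h4 := congrArg Complex.re h2
  simp [h3] at h4
  nlinarith [mul_self_nonneg (complexEmbedding i).re]

end Fermat.Agent.EC.Rep
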