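import Fermat.Prelude.Def_GaloisRep_Residual
import Mathlib.LinearAlgebra.Matrix.ToLin
import Mathlib.LinearAlgebra.Charpoly.ToMatrix
import Mathlib.LinearAlgebra.Matrix.Charpoly.Coeff

/-!
# Odd irreducible two-dimensional representations

An irreducible odd representation in odd characteristic stays irreducible over every extension
field, and its trace is not identically `1 + det`.
-/

set_option autoImplicit false

open scoped TensorProduct
open Module

namespace Fermat.Agent.EC.Rep

local notation "GQ" => AlgebraicClosure ℚ ≃ₐ[ℚ] AlgebraicClosure ℚ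

variable {k : Type} [Field k] (ρ : ResidualGaloisRep k) {c : GQ}

/-- An eigenbasis of an odd involution. -/
theorem exists_involution_basis (h2 : (2 : k) ≠ 0) (hc : c * c = 1)
    (hdet : LinearMap.det (ρ.ρ c) = -1) :
    ∃ b : Basis (Fin 2) k ρ.V, ρ.ρ c (b 0) = b 0 ∧ ρ.ρ c (b 1) = -b 1 := by
  set T := ρ.ρ c with hT
  have hTT : ∀ v, T (T v) = v := fun v => by
    rw [hT, ← Module.End.mul_apply, ← map_mul, hc, map_one, Module.End.one_apply]
  obtain ⟨u, hu⟩ : ∃ u, u + T u ≠ 0 := by
    by_contra h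
    push Not at h
    have hT' : T = (-1 : k) • LinearMap.id := LinearMap.ext fun v => by
      simp [eq_neg_of_add_eq_zero_right (h v)]
    rw [hT', LinearMap.det_smul, LinearMap.det_id, ρ.finrank_eq] at hdet
    exact h2 (by linear_combination hdet)
  obtain ⟨w, hw⟩ : ∃ w, w - T w ≠ 0 := by
    by_contra h
    push Not at h
    have hT' : T = LinearMap.id := LinearMap.ext fun v => (sub_eq_zero.mp (h v)).symm
    rw [hT', LinearMap.det_id] at hdet
    exact h2 (by linear_combination hdet)
  have e0 : T (u + T u) = u + T u := by rw [map_add, hTT, add_comm]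
  have e1 : T (w - T w) = -(w - T w) := by rw [map_sub, hTT, neg_sub]
  have hli : LinearIndependent k ![u + T u, w - T w] := by
    rw [LinearIndependent.pair_iff]
    intro s t hst
    have hst' := congrArg T hst
    rw [map_add, map_smul, map_smul, e0, e1, map_zero, smul_neg] at hst'
    have h3 : (2 * s) • (u + T u) = 0 := by
      rw [mul_smul, two_smul]; linear_combination (norm := module) hst + hst'
    have hs : s = 0 := (mul_eq_zero.mp ((smul_eq_zero.mp h3).resolve_right hu)).resolve_left h2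
    rw [hs, zero_smul, zero_add] at hst
    exact ⟨hs, (smul_eq_zero.mp hst).resolve_right hw⟩
  refine ⟨basisOfLinearIndependentOfCardEqFinrank hli (by simp [ρ.finrank_eq]), ?_, ?_⟩
  · simpa using e0
  · simpa using e1

variable {ρ}

theorem stable_span_singleton_of_repr_eq_zero (b : Basis (Fin 2) k ρ.V) {i j : Fin 2}
    (hij : i ≠ j) (h : ∀ σ : GQ, b.repr (ρ.ρ σ (b i)) j = 0) (hirr : ρ.IsIrreducible) : False := by
  have hmem : ∀ v, b.repr v j = 0 → v ∈ Submodule.span k {b i} := fun v hv => by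
    rw [Submodule.mem_span_singleton]
    refine ⟨b.repr v i, ?_⟩
    conv_rhs => rw [← b.sum_repr v, Fin.sum_univ_two]
    fin_cases i <;> fin_cases j <;> simp_all
  rcases hirr (Submodule.span k {b i}) (fun σ x hx => by
    obtain ⟨a, rfl⟩ := Submodule.mem_span_singleton.mp hx
    rw [map_smul]
    exact Submodule.smul_mem _ a (hmem _ (h σ))) with hW | hW
  · exact b.ne_zero i (Submodule.span_singleton_eq_bot.mp hW)
  · obtain ⟨a, ha⟩ := Submodule.mem_span_singleton.mp
      (hW ▸ Submodule.mem_top : b j ∈ Submodule.span k {b i})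
    have := congrArg (fun v => b.repr v j) ha
    simp [Finsupp.single_eq_of_ne hij.symm] at this

/-- An odd irreducible representation stays irreducible over every extension field. -/
theorem baseChange_stable_eq_bot_or_top (h2 : (2 : k) ≠ 0) (hc : c * c = 1)
    (hdet : LinearMap.det (ρ.ρ c) = -1) (hirr : ρ.IsIrreducible) (K : Type) [Field K]
    [Algebra k K] : (ρ.baseChange K).IsIrreducible := by
  obtain ⟨b, hb0, hb1⟩ := exists_involution_basis ρ h2 hc hdet
  intro W hW
  set f : Basis (Fin 2) K (K ⊗[k] ρ.V) := b.baseChange K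
  have hf : ∀ i, f i = (1 : K) ⊗ₜ b i := fun i => b.baseChange_apply K i
  have hρ : ∀ (σ : GQ) i, (ρ.baseChange K).ρ σ (f i) = (1 : K) ⊗ₜ ρ.ρ σ (b i) := fun σ i => by
    rw [hf]; exact LinearMap.baseChange_tmul _ _ _
  have hc0 : (ρ.baseChange K).ρ c (f 0) = f 0 := by rw [hρ, hb0, hf]
  have hc1 : (ρ.baseChange K).ρ c (f 1) = -f 1 := by rw [hρ, hb1, hf, TensorProduct.tmul_neg]
  have h2K : (2 : K) ≠ 0 := by
    rw [← map_ofNat (algebraMap k K)]; simpa using h2
  have hsplit : ∀ v ∈ W, f.repr v 0 • f 0 ∈ W ∧ f.repr v 1 • f 1 ∈ W := by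
    intro v hv
    have hTv := hW c v hv
    set x := f.repr v 0
    set y := f.repr v 1
    have hv' : v = x • f 0 + y • f 1 := by
      conv_lhs => rw [← f.sum_repr v, Fin.sum_univ_two]
    rw [hv', map_add, map_smul, map_smul, hc0, hc1, smul_neg] at hTv
    rw [hv'] at hv
    constructor
    · have := W.smul_mem (2 : K)⁻¹ (W.add_mem hv hTv)
      rwa [show x • f 0 + y • f 1 + (x • f 0 + -(y • f 1)) = (2 : K) • x • f 0 by module,
        inv_smul_smul₀ h2K] at this
    · have := W.smul_mem (2 : K)⁻¹ (W.sub_mem hv hTv)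
      rwa [show x • f 0 + y • f 1 - (x • f 0 + -(y • f 1)) = (2 : K) • y • f 1 by module,
        inv_smul_smul₀ h2K] at this
  have key : ∀ i j : Fin 2, i ≠ j → f i ∈ W → f j ∈ W := by
    intro i j hij hi
    by_contra hj
    refine stable_span_singleton_of_repr_eq_zero b hij (fun σ => ?_) hirr
    by_contra hne
    have h1 := hsplit _ (hW σ (f i) hi)
    have hr : ∀ l, f.repr ((ρ.baseChange K).ρ σ (f i)) l =
        algebraMap k K (b.repr (ρ.ρ σ (b i)) l) := fun l => by
      rw [hρ, Module.Basis.baseChange_repr_tmul, Algebra.algebraMap_eq_smul_one]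
    have hj' : algebraMap k K (b.repr (ρ.ρ σ (b i)) j) • f j ∈ W := by
      rw [← hr]
      fin_cases j <;> [exact h1.1; exact h1.2]
    refine hj ?_
    have := W.smul_mem (algebraMap k K (b.repr (ρ.ρ σ (b i)) j))⁻¹ hj'
    rwa [inv_smul_smul₀ (by simpa using hne)] at this
  by_cases hWb : W = ⊥
  · exact Or.inl hWb
  right
  obtain ⟨v, hv, hv0⟩ := Submodule.exists_mem_ne_zero_of_ne_bot hWb
  obtain ⟨i, hi⟩ : ∃ i, f.repr v i ≠ 0 := by
    by_contra h
    push Not at h
    exact hv0 (f.ext_elem fun i => by rw [h i, map_zero, Finsupp.zero_apply])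
  have hfi : f i ∈ W := by
    have := hsplit v hv
    have h' : f.repr v i • f i ∈ W := by fin_cases i <;> [exact this.1; exact this.2]
    have := W.smul_mem (f.repr v i)⁻¹ h'
    rwa [inv_smul_smul₀ hi] at this
  have hall : ∀ j, f j ∈ W := fun j => by
    by_cases hij : i = j
    · exact hij ▸ hfi
    · exact key i j hij hfi
  rw [eq_top_iff, ← f.span_eq, Submodule.span_le]
  rintro _ ⟨j, rfl⟩
  exact hall j

/-- An odd irreducible representation is absolutely irreducible. -/
theorem isAbsolutelyIrreducible_of_odd (h2 : (2 : k) ≠ 0) (hc : c * c = 1)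
    (hdet : LinearMap.det (ρ.ρ c) = -1) (hirr : ρ.IsIrreducible) : ρ.IsAbsolutelyIrreducible :=
  baseChange_stable_eq_bot_or_top h2 hc hdet hirr _

/-- The trace of an odd irreducible representation is not `1 + det`. -/
theorem exists_trace_ne_one_add_det (h2 : (2 : k) ≠ 0) (hc : c * c = 1)
    (hdet : LinearMap.det (ρ.ρ c) = -1) (hirr : ρ.IsIrreducible) :
    ∃ σ : GQ, LinearMap.trace k ρ.V (ρ.ρ σ) ≠ 1 + LinearMap.det (ρ.ρ σ) := by
  by_contra h
  push Not at h
  obtain ⟨b, hb0, hb1⟩ := exists_involution_basis ρ h2 hc hdet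
  set M : GQ → Matrix (Fin 2) (Fin 2) k := fun σ => LinearMap.toMatrix b b (ρ.ρ σ) with hM
  have hmul : ∀ σ τ, M (σ * τ) = M σ * M τ := fun σ τ => by
    simp only [hM, map_mul, LinearMap.toMatrix_mul]
  have htr : ∀ σ, (M σ).trace = 1 + (M σ).det := fun σ => by
    simp only [hM, ← LinearMap.trace_eq_matrix_trace, LinearMap.det_toMatrix]
    exact h σ
  have hMc : M c = !![1, 0; 0, -1] := by
    ext i j
    fin_cases i <;> fin_cases j <;> simp [hM, LinearMap.toMatrix_apply, hb0, hb1]
  have hentry : ∀ σ, M σ 0 1 * M σ 1 0 = 0 ∧ M σ 0 0 = 1 ∧ M σ 1 1 = (M σ).det := by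
    intro σ
    have h1 := htr σ
    have h3 := htr (c * σ)
    rw [hmul, Matrix.det_mul, hMc, Matrix.det_fin_two_of] at h3
    rw [Matrix.trace_fin_two, Matrix.mul_apply, Matrix.mul_apply] at h3
    simp [Fin.sum_univ_two] at h3
    rw [Matrix.trace_fin_two] at h1
    have e0 : M σ 0 0 = 1 := mul_left_cancel₀ h2 (by linear_combination h1 + h3)
    have e1 : M σ 1 1 = (M σ).det := mul_left_cancel₀ h2 (by linear_combination h1 - h3)
    refine ⟨?_, e0, e1⟩
    have hd := Matrix.det_fin_two (M σ)
    rw [e0, one_mul] at hd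
    linear_combination hd + e1
  have hdet0 : ∀ σ, (M σ).det ≠ 0 := fun σ h0 => by
    have h4 : (M σ).det * (M σ⁻¹).det = 1 := by
      rw [← Matrix.det_mul, ← hmul, mul_inv_cancel]
      simp [hM]
    rw [h0, zero_mul] at h4
    exact zero_ne_one h4
  obtain ⟨σ, hσ⟩ : ∃ σ, M σ 0 1 ≠ 0 := by
    by_contra hall
    push Not at hall
    exact stable_span_singleton_of_repr_eq_zero b (i := 1) (j := 0) (by decide)
      (fun σ => (LinearMap.toMatrix_apply b b _ _ _).symm.trans (hall σ)) hirr
  obtain ⟨τ, hτ⟩ : ∃ τ, M τ 1 0 ≠ 0 := by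
    by_contra hall
    push Not at hall
    exact stable_span_singleton_of_repr_eq_zero b (i := 0) (j := 1) (by decide)
      (fun σ => (LinearMap.toMatrix_apply b b _ _ _).symm.trans (hall σ)) hirr
  have hσ' : M σ 1 0 = 0 := (mul_eq_zero.mp (hentry σ).1).resolve_left hσ
  have hτ' : M τ 0 1 = 0 := (mul_eq_zero.mp (hentry τ).1).resolve_right hτ
  have h5 := (hentry (σ * τ)).1
  rw [hmul] at h5
  simp [Matrix.mul_apply, Fin.sum_univ_two, hσ', hτ', (hentry σ).2.2, (hentry τ).2.2] at h5
  rcases h5 with (h5 | h5) | h5 | h5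
  · exact hσ h5
  · exact hdet0 τ h5
  · exact hdet0 σ h5
  · exact hτ h5

end Fermat.Agent.EC.Rep
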