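import Fermat.Agent.EC.FrobTrace.DetCyclotomic
import Fermat.Agent.EC.Rep.Involution
import Fermat.Agent.EC.Rep.OddRep
import Fermat.Prelude.Def_FLTPrelim_ModularRep
import Fermat.Prelude.Def_GaloisRep_LocalConditions

/-!
# The residual representation of an elliptic curve

For an integral model `W` with `Δ ≠ 0` and a prime `p`, `residualRep W hΔ p` is the Galois
representation on `E[p]`: its determinant is cyclotomic, it is unramified at good primes, and
absolutely irreducible when it is irreducible and `p ≠ 2`.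
-/

set_option autoImplicit false

open scoped WeierstrassCurve.Affine
open WeierstrassCurve WeierstrassCurve.Affine.Point Polynomial

namespace Fermat.Agent.EC.Rep

local notation "Q̄" => AlgebraicClosure ℚ
local notation "GQ" => AlgebraicClosure ℚ ≃ₐ[ℚ] AlgebraicClosure ℚ

variable (W : WeierstrassCurve ℤ) (p : ℕ) [Fact p.Prime]

theorem natCard_torsion (hΔ : W.Δ ≠ 0) : Nat.card (Submodule.torsionBy ℤ
    ((W.map (Int.castRingHom ℚ))⁄Q̄).Point p) = p ^ 2 :=
  haveI := FrobTrace.isElliptic_map_rat hΔ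
  Torsion.natCard_torsionBy_algebraicClosureRat _ (Fact.out : p.Prime).ne_zero

theorem factorsThroughFiniteLevel (hΔ : W.Δ ≠ 0) : GaloisFactorsThroughFiniteLevel
    (galoisRepModuleEnd (K := Q̄) ℚ (W.map (Int.castRingHom ℚ)) p) :=
  haveI := FrobTrace.isElliptic_map_rat hΔ
  Torsion.galoisFactorsThroughFiniteLevel_galoisRepModuleEnd _ (Fact.out : p.Prime).ne_zero

/-- The representation on the `p`-torsion. -/
noncomputable def residualRep (hΔ : W.Δ ≠ 0) : ResidualGaloisRep (ZMod p) :=
  (W.map (Int.castRingHom ℚ)).residualGaloisRepOf p (natCard_torsion W p hΔ)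
    (factorsThroughFiniteLevel W p hΔ)

variable {W p} (hΔ : W.Δ ≠ 0)

/-- The determinant is the mod `p` cyclotomic character. -/
theorem det_residualRep (hn : Nat.card (rootsOfUnity p Q̄) = p) (σ : GQ) :
    LinearMap.det ((residualRep W p hΔ).ρ σ) =
      ((modularCyclotomicCharacter Q̄ hn (σ : Q̄ ≃+* Q̄) : (ZMod p)ˣ) : ZMod p) := by
  have h := FrobTrace.galoisRepDetEqCyclotomic W hΔ p hn σ
  rw [← h, galoisRepDet_apply, LinearEquiv.coe_det]
  rfl

theorem detIsCyclotomic_residualRep :
    (GaloisRepAdic.ofResidualGaloisRep (residualRep W p hΔ)).DetIsCyclotomic p := by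
  refine ⟨by simp, fun n σ a ha => ?_⟩
  rcases Nat.eq_zero_or_pos n with rfl | hn0
  · simp
  · have hn := FrobTrace.card_rootsOfUnity_Qbar p
    have e : LinearMap.det ((GaloisRepAdic.ofResidualGaloisRep (residualRep W p hΔ)).ρ σ) =
        (a : ZMod p) := by
      refine (det_residualRep hΔ hn σ).trans (Arith.modularCyclotomicCharacter_eq_natCast hn ?_)
      intro ζ hζ
      exact ha ζ (by rw [← Nat.sub_add_cancel hn0, pow_succ', pow_mul, hζ, one_pow])
    rw [e, sub_self]
    exact zero_mem _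

theorem det_residualRep_involution (hp2 : p ≠ 2) {c : GQ} (hc : c * c = 1) (hne : c ≠ 1) :
    LinearMap.det ((residualRep W p hΔ).ρ c) = -1 := by
  rw [det_residualRep hΔ (FrobTrace.card_rootsOfUnity_Qbar p)]
  exact modularCyclotomicCharacter_involution hc hne hp2 _

theorem isIrreducible_residualRep_iff :
    (residualRep W p hΔ).IsIrreducible ↔ W.ModRepIsIrreducible p := by
  constructor
  · intro h
    have := Module.nontrivial_of_finrank_eq_succ (residualRep W p hΔ).finrank_eq
    exact ⟨this, fun N hN => h N hN⟩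
  · exact fun h N hN => h.2 N hN

theorem two_ne_zero_zmod (hp2 : p ≠ 2) : (2 : ZMod p) ≠ 0 := by
  intro h
  have : p ∣ 2 := (ZMod.natCast_eq_zero_iff 2 p).mp (by simpa using h)
  exact hp2 ((Nat.prime_dvd_prime_iff_eq Fact.out Nat.prime_two).mp this)

theorem baseChange_residualRep_isIrreducible (hp2 : p ≠ 2) (hirr : W.ModRepIsIrreducible p)
    (K : Type) [Field K] [Algebra (ZMod p) K] :
    ((residualRep W p hΔ).baseChange K).IsIrreducible :=
  baseChange_stable_eq_bot_or_top (two_ne_zero_zmod hp2) complexConjugation_mul_self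
    (det_residualRep_involution hΔ hp2 complexConjugation_mul_self complexConjugation_ne_one)
    ((isIrreducible_residualRep_iff hΔ).mpr hirr) K

theorem isAbsolutelyIrreducible_residualRep (hp2 : p ≠ 2) (hirr : W.ModRepIsIrreducible p) :
    (residualRep W p hΔ).IsAbsolutelyIrreducible :=
  baseChange_residualRep_isIrreducible hΔ hp2 hirr _

theorem isUnramifiedAt_residualRep {q : ℕ} (hq : q.Prime) (hgood : W.IsGoodPrimeFor q)
    (hqp : q ≠ p) : (residualRep W p hΔ).IsUnramifiedAt q := fun A hA σ hσ =>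
  LinearMap.ext fun x => Reduction.galoisRepUnramifiedAt_of_good W hq hgood
    (fun h => hqp ((Nat.prime_dvd_prime_iff_eq hq Fact.out).mp h)) A hA σ hσ x

theorem charpoly_residualRep_frobenius {ℓ : ℕ} (hℓ : ℓ.Prime) (hgood : W.IsGoodPrimeFor ℓ)
    (hne : ℓ ≠ p) {A : ValuationSubring Q̄} (hA : A.LiesOverPrime ℓ) {σ : GQ}
    (hσ : A.IsFrobeniusAt σ ℓ) :
    LinearMap.charpoly ((residualRep W p hΔ).ρ σ) =
      X ^ 2 - C (W.apOfModel ℓ : ZMod p) * X + C (ℓ : ZMod p) :=
  haveI : Module.Finite (ZMod p)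
      (Submodule.torsionBy ℤ ((W.map (Int.castRingHom ℚ))⁄Q̄).Point p) :=
    inferInstanceAs (Module.Finite (ZMod p) (residualRep W p hΔ).V)
  FrobTrace.charpoly_frobenius W hℓ hgood hne hA hσ

theorem trace_det_pow {k V : Type*} [Field k] [AddCommGroup V] [Module k V] [Module.Finite k V]
    (hV : Module.finrank k V = 2) (T : Module.End k V)
    (h : LinearMap.trace k V T = 1 + LinearMap.det T) (i : ℕ) :
    LinearMap.trace k V (T ^ i) = 1 + LinearMap.det (T ^ i) := by
  set D := LinearMap.det T with hD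
  have hrec : ∀ j, T ^ (j + 2) = (1 + D) • T ^ (j + 1) - D • T ^ j := by
    intro j
    have hch : T ^ 2 - (1 + D) • T + D • 1 = 0 := by
      have := T.aeval_self_charpoly
      rw [FrobTrace.charpoly_of_finrank_eq_two hV, h, ← hD] at this
      simpa [Algebra.algebraMap_eq_smul_one, add_mul, add_smul] using this
    have := congrArg (fun S => T ^ j * S) hch
    simp only [mul_add, mul_sub, mul_smul_comm, mul_one, mul_zero, ← pow_add, ← pow_succ] at this
    linear_combination (norm := module) this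
  induction i using Nat.strong_induction_on with
  | _ i ih =>
    rw [map_pow LinearMap.det, ← hD]
    match i with
    | 0 => rw [pow_zero, pow_zero, LinearMap.trace_one, hV]; norm_num
    | 1 => rw [pow_one, pow_one, h]
    | j + 2 =>
      have e1 := ih (j + 1) (by omega)
      have e0 := ih j (by omega)
      rw [map_pow LinearMap.det, ← hD] at e1 e0
      rw [hrec, map_sub, map_smul, map_smul, e1, e0, smul_eq_mul, smul_eq_mul]
      ring

/-- For an irreducible representation `aₗ ≢ 1 + ℓ` at infinitely many good primes. -/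
theorem exists_apOfModel_ne (hp2 : p ≠ 2) (hirr : W.ModRepIsIrreducible p) (hΔ : W.Δ ≠ 0)
    (S : Finset ℕ) : ∃ ℓ : ℕ, ℓ.Prime ∧ ℓ ∉ S ∧ W.IsGoodPrimeFor ℓ ∧ ℓ ≠ p ∧
      (W.apOfModel ℓ : ZMod p) ≠ 1 + ℓ := by
  classical
  set ρ := residualRep W p hΔ
  obtain ⟨g, hg⟩ := exists_trace_ne_one_add_det (ρ := ρ) (two_ne_zero_zmod hp2)
    complexConjugation_mul_self
    (det_residualRep_involution hΔ hp2 complexConjugation_mul_self complexConjugation_ne_one)
    ((isIrreducible_residualRep_iff hΔ).mpr hirr)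
  obtain ⟨L, hLfin, hL⟩ := ρ.factorsThroughFiniteLevel
  obtain ⟨ℓ, hℓ, hℓS, A, hA, σ, hσ, ⟨i, hi⟩, -⟩ :=
    Arith.Density.exists_frobenius_pow ρ.ρ L hL g (S ∪ insert p W.Δ.natAbs.primeFactors)
  simp only [Finset.mem_union, Finset.mem_insert, not_or] at hℓS
  have hgood : W.IsGoodPrimeFor ℓ := fun hdvd => hℓS.2.2
    (Nat.mem_primeFactors.mpr ⟨hℓ, Int.natCast_dvd.mp hdvd, Int.natAbs_ne_zero.mpr hΔ⟩)
  refine ⟨ℓ, hℓ, hℓS.1, hgood, hℓS.2.1, fun hcontra => hg ?_⟩
  rw [hi]
  refine trace_det_pow ρ.finrank_eq _ ?_ i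
  exact (FrobTrace.galoisTrace_frobenius W hℓ hgood hℓS.2.1 hA hσ).trans (hcontra.trans
    (congrArg (1 + ·) (FrobTrace.det_frobenius W hℓ hgood hℓS.2.1 hA hσ).symm))

end Fermat.Agent.EC.Rep
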