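import Fermat.Agent.Arith.Minkowski

/-!
# Ramification bounds for the image of inertia

If the valuation at a place over `p` of an element of the field cut out by `ρ` is a `d`-th root
of the valuation of `p⁻¹`, then `ρ` takes at least `d` values on the inertia group at that place.
-/

set_option autoImplicit false

noncomputable section

namespace Fermat.Agent.EC.Rep

open Fermat.Agent.Arith IsDedekindDomain
open scoped Pointwise NumberField WithZero

variable {M : Type*} [Monoid M] [Finite M]

theorem le_natCard_image_inertia (ρ : GQ →* M) (L₀ : IntermediateField ℚ QBar)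
    [FiniteDimensional ℚ L₀] (hL₀ : ∀ σ : GQ, (∀ x ∈ L₀, σ x = x) → ρ σ = 1)
    {p : ℕ} (hp : p.Prime) {A : ValuationSubring QBar} (hA : A.LiesOverPrime p) {y : QBar}
    (hy : ∀ σ : GQ, ρ σ = 1 → σ y = y) {d : ℕ} (hval : A.valuation (y ^ d * p) = 1) :
    d ≤ Nat.card (ρ '' (A.inertiaSubgroupIn ℚ : Set GQ)) := by
  set H : Subgroup GQ := galKer ρ with hHdef
  have hopen : IsOpen (H : Set GQ) := isOpen_galKer_of_fixing L₀ hL₀
  let L : IntermediateField ℚ QBar := IntermediateField.fixedField H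
  have hclosed : IsClosed (H : Set GQ) := H.isClosed_of_isOpen hopen
  have hfix : L.fixingSubgroup = H := InfiniteGalois.fixingSubgroup_fixedField ⟨H, hclosed⟩
  have : FiniteDimensional ℚ L :=
    (InfiniteGalois.isOpen_iff_finite L).mp (by rw [hfix]; exact hopen)
  have : IsGalois ℚ L := (InfiniteGalois.normal_iff_isGalois L).mp (by rw [hfix]; infer_instance)
  have : NumberField L := { to_finiteDimensional := inferInstance }
  have : IsGaloisGroup Gal(L/ℚ) ℤ (𝓞 L) := IsGaloisGroup.of_isFractionRing Gal(L/ℚ) ℤ (𝓞 L) ℚ L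
  let ι : 𝓞 L →+* ZBar :=
    { toFun := fun x => ⟨((x : L) : QBar), (x.2 : IsIntegral ℤ (x : L)).map
        (L.val.toRingHom.toIntAlgHom)⟩
      map_one' := Subtype.ext (by simp)
      map_mul' := fun x y => Subtype.ext (by simp)
      map_zero' := Subtype.ext (by simp)
      map_add' := fun x y => Subtype.ext (by simp) }
  let P : Ideal (𝓞 L) := (centre A).comap ι
  have hp𝔓 : (p : 𝓞 L) ∈ P := by
    show ι p ∈ centre A
    rw [map_natCast, mem_centre]
    exact hA
  have hp0 : (p : 𝓞 L) ≠ 0 := Nat.cast_ne_zero.mpr hp.ne_zero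
  have hPbot : P ≠ ⊥ := fun h => hp0 ((Submodule.mem_bot _).mp (h ▸ hp𝔓))
  let v : HeightOneSpectrum (𝓞 L) := ⟨P, inferInstance, hPbot⟩
  -- lift the inertia group at `P`
  have hlift : ∀ τ : P.inertia Gal(L/ℚ), ∃ g ∈ A.inertiaSubgroupIn ℚ,
      AlgEquiv.restrictNormalHom L g = (τ : Gal(L/ℚ)) := by
    rintro ⟨τ, hτ⟩
    obtain ⟨g, rfl⟩ := AlgEquiv.restrictNormalHom_surjective (K₁ := L) QBar τ
    obtain ⟨h', hh', hin⟩ := exists_inertia_lift hA hp H hclosed g fun x hx hxH => by
      have hxL : x ∈ L := fun σ => hxH σ.1 σ.2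
      let y : 𝓞 L := ⟨⟨x, hxL⟩, (isIntegral_algHom_iff (L.val.toRingHom.toIntAlgHom)
        L.val.injective).mp hx⟩
      have := (mem_centre A).mp (show ι (_ • y - y) ∈ centre A from hτ y)
      have hc := AlgEquiv.restrictNormal_commutes g L ⟨x, hxL⟩
      have h2 : ((ι (AlgEquiv.restrictNormalHom L g • y - y) : ZBar) : QBar) =
          (algebraMap L QBar) ((g.restrictNormal L) ⟨x, hxL⟩) - x := by
        show (algebraMap L QBar) ((AlgEquiv.restrictNormalHom L g • y - y : 𝓞 L) : L) = _
        rw [NumberField.RingOfIntegers.coe_eq_algebraMap, map_sub, map_sub]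
        rfl
      rw [h2, hc] at this
      exact this
    refine ⟨h' * g, hin, ?_⟩
    rw [map_mul]
    have h1 : AlgEquiv.restrictNormalHom L h' = 1 := AlgEquiv.ext fun z => Subtype.ext
      ((AlgEquiv.restrictNormal_commutes h' L z).trans (z.2 ⟨h', hh'⟩))
    rw [h1, one_mul]
  choose g hg hgτ using hlift
  have hinj : Function.Injective (fun τ : P.inertia Gal(L/ℚ) =>
      (⟨ρ (g τ), Set.mem_image_of_mem ρ (hg τ)⟩ : (ρ '' (A.inertiaSubgroupIn ℚ : Set GQ) : Set M))) := by
    intro τ τ' h
    have h' : ρ (g τ) = ρ (g τ') := congrArg Subtype.val h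
    have hker : (g τ')⁻¹ * g τ ∈ H := mem_galKer.mpr (by
      rw [map_mul, h', ← map_mul, inv_mul_cancel, map_one])
    apply Subtype.ext
    rw [← hgτ, ← hgτ]
    refine AlgEquiv.ext fun z => Subtype.ext ?_
    refine (AlgEquiv.restrictNormal_commutes _ L z).trans
      (Eq.trans ?_ (AlgEquiv.restrictNormal_commutes _ L z).symm)
    have := z.2 ⟨_, hker⟩
    show g τ (z : QBar) = g τ' (z : QBar)
    have h2 : ((g τ')⁻¹ * g τ) • (z : QBar) = z := this
    rw [mul_smul, inv_smul_eq_iff] at h2
    exact h2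
  have hcard : Nat.card (P.inertia Gal(L/ℚ)) ≤
      Nat.card (ρ '' (A.inertiaSubgroupIn ℚ : Set GQ) : Set M) :=
    Nat.card_le_card_of_injective _ hinj
  -- the inertia group has order the valuation of `p`
  have hPp : P.LiesOver (Ideal.span {(p : ℤ)}) :=
    (Ideal.liesOver_span_iff Ideal.IsPrime.ne_top' (Nat.prime_iff_prime_int.mp hp)).mpr
      (by simpa using hp𝔓)
  have : (Ideal.span {(p : ℤ)}).IsMaximal :=
    PrincipalIdealRing.isMaximal_of_irreducible (Nat.prime_iff_prime_int.mp hp).irreducible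
  have hmap : (Ideal.span {(p : ℤ)}).map (algebraMap ℤ (𝓞 L)) = Ideal.span {(p : 𝓞 L)} := by
    rw [Ideal.map_span, Set.image_singleton, map_natCast]
  set e := P.ramificationIdx ℤ with he
  have hI : Nat.card (P.inertia Gal(L/ℚ)) = e := by
    rw [Ideal.card_inertia_eq_ramificationIdxIn (G := Gal(L/ℚ)) (Ideal.span {(p : ℤ)}) P,
      Ideal.ramificationIdxIn_eq_ramificationIdx (Ideal.span {(p : ℤ)}) P Gal(L/ℚ)]
  have hepos : 0 < e := Ideal.ramificationIdx_pos P ℤ
  have hvp : v.valuation L (p : L) = WithZero.exp (-(e : ℤ)) := by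
    have h0 : (p : L) = algebraMap (𝓞 L) L (p : 𝓞 L) := (map_natCast _ _).symm
    rw [h0, v.valuation_of_algebraMap, v.intValuation_eq_exp_neg_multiplicity hp0, he,
      Ideal.IsDedekindDomain.ramificationIdx_eq_multiplicity (Ideal.span {(p : ℤ)}) P
        (by rw [hmap]; simpa using hp0), hmap]
  have hyL : y ∈ L := fun σ => hy σ.1 (mem_galKer.mp σ.2)
  set z : L := ⟨y, hyL⟩ ^ d * (p : L) with hzdef
  have hz : (z : QBar) = y ^ d * p := by rw [hzdef]; push_cast; rfl
  have hz0 : z ≠ 0 := fun h => by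
    rw [h, ZeroMemClass.coe_zero] at hz
    rw [← hz, map_zero] at hval
    exact zero_ne_one hval
  -- an element of `L` which is a unit at `A` is a unit at `P`
  have hvz : v.valuation L z = 1 := by
    have hle : ∀ x : 𝓞 L, x ∈ P → A.valuation ((x : L) : QBar) < 1 := fun x hx =>
      (A.mem_nonunits_iff).mp ((mem_centre A).mp hx)
    have hone : ∀ x : 𝓞 L, x ∉ P → A.valuation ((x : L) : QBar) = 1 := fun x hx =>
      le_antisymm ((A.valuation_le_one_iff _).mpr (mem_of_isIntegral A (ι x).2))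
        (not_lt.mp fun h => hx ((mem_centre A).mpr ((A.mem_nonunits_iff).mpr h)))
    obtain ⟨n, s, hns | hns⟩ := v.exists_primeCompl_mul_eq_or_mul_eq (K := L) z
    all_goals
      have hs1 := hone (s : 𝓞 L) s.2
      have hs2 : v.valuation L (algebraMap (𝓞 L) L s) = 1 :=
        (HeightOneSpectrum.valuation_eq_one_iff_notMem v).mpr s.2
      have hv := congrArg (fun x : L => A.valuation (x : QBar)) hns
      simp only [IntermediateField.coe_mul, map_mul, hz, hval, one_mul,
        ← NumberField.RingOfIntegers.coe_eq_algebraMap] at hv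
      have hn : n ∉ P := fun hn => by
        have := hle n hn
        rw [hs1] at hv
        rw [hv] at this
        exact lt_irrefl _ this
      have hn2 : v.valuation L (algebraMap (𝓞 L) L n) = 1 :=
        (HeightOneSpectrum.valuation_eq_one_iff_notMem v).mpr hn
      have h3 := congrArg (v.valuation L) hns
      rw [map_mul] at h3
      first
        | (rw [hs2, hn2, mul_one] at h3; exact h3)
  have hy0 : (⟨y, hyL⟩ : L) ≠ 0 ∨ d = 0 := by
    by_contra h
    simp only [not_or, not_not] at h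
    exact hz0 (by rw [hzdef, h.1, zero_pow h.2, zero_mul])
  rcases hy0 with hy0 | rfl
  swap
  · exact Nat.zero_le _
  rw [hzdef, map_mul, map_pow, hvp] at hvz
  have hlog := congrArg WithZero.log hvz
  rw [WithZero.log_mul (pow_ne_zero _ ((v.valuation L).ne_zero_iff.mpr hy0)) WithZero.exp_ne_zero,
    WithZero.log_pow, WithZero.log_exp, WithZero.log_one, nsmul_eq_mul] at hlog
  have hde : (d : ℤ) ∣ (e : ℤ) := ⟨WithZero.log (v.valuation L ⟨y, hyL⟩), by linarith⟩
  calc d ≤ e := Nat.le_of_dvd hepos (Int.natCast_dvd_natCast.mp hde)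
    _ ≤ _ := hI ▸ hcard

end Fermat.Agent.EC.Rep
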